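/-
S25, part (C): a smooth curve over a field has discrete valuation rings as local rings at
non-generic points.
-/
import Mathlib

set_option autoImplicit false

noncomputable section

namespace Fermat.Agent.Picard.Curve

universe u

open Polynomial

/-- A domain which is etale over a polynomial ring in one variable over a field has discrete
valuation rings as localisations at non-zero primes. -/
theorem isDedekindDomainDvr_of_etale {k S : Type u} [Field k] [CommRing S] [IsDomain S]
    [Algebra k[X] S] [Algebra.Etale k[X] S] : IsDedekindDomainDvr S := by
  have : Algebra.FiniteType k[X] S := inferInstance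
  refine { toIsNoetherian := Algebra.FiniteType.isNoetherianRing k[X] S,
           is_dvr_at_nonzero_prime := fun q hq hqp ↦ ?_ }
  let p := q.under k[X]
  let := Localization.AtPrime.algebraOfLiesOver p q
  have hmap : p.map (algebraMap k[X] (Localization.AtPrime q)) =
      IsLocalRing.maximalIdeal (Localization.AtPrime q) :=
    ((Algebra.isUnramifiedAt_iff_map_eq k[X] p q).mp inferInstance).2
  have hnf := IsLocalization.AtPrime.not_isField S hq (Localization.AtPrime q)
  have := IsLocalization.isNoetherianRing q.primeCompl (Localization.AtPrime q)
    (Algebra.FiniteType.isNoetherianRing k[X] S)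
  refine ((IsDiscreteValuationRing.TFAE (Localization.AtPrime q) hnf).out 4 0).mp ?_
  obtain ⟨f, hf⟩ := (IsPrincipalIdealRing.principal p).principal
  refine ⟨⟨algebraMap k[X] (Localization.AtPrime q) f, ?_⟩⟩
  rw [← hmap, hf, Ideal.submodule_span_eq, Ideal.map_span, Set.image_singleton,
    Ideal.submodule_span_eq]

/-- A domain which is standard smooth of relative dimension one over a field is a Dedekind
domain. -/
theorem isDedekindDomain_of_isStandardSmooth {k S : Type u} [Field k] [CommRing S] [IsDomain S]
    {f : k →+* S} (hf : f.IsStandardSmoothOfRelativeDimension 1) : IsDedekindDomain S := by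
  obtain ⟨g, -, hg⟩ := hf.exists_etale_mvPolynomial
  let h : k[X] →+* S := g.comp (MvPolynomial.uniqueAlgEquiv k (Fin 1)).symm.toRingEquiv.toRingHom
  have hh : h.Etale := RingHom.Etale.stableUnderComposition _ _ (RingHom.Etale.of_bijective (RingEquiv.bijective _)) hg
  algebraize [h]
  have := isDedekindDomainDvr_of_etale (k := k) (S := S)
  infer_instance

end Fermat.Agent.Picard.Curve

end
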