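/-
S25, part (C): constants, stalks, closed points of a smooth curve over an algebraically closed
field.
-/
import Fermat.Agent.Picard.Curve.Dvr

set_option autoImplicit false

noncomputable section

namespace Fermat.Agent.Picard.Curve

universe u

open CategoryTheory CategoryTheory.Limits AlgebraicGeometry TopologicalSpace

variable {k : Type u} [Field k] {C : Scheme.{u}} (c : C ⟶ Spec (CommRingCat.of k))

/-- The constants inside the sections over an open subset. -/
def kHom (W : C.Opens) : k →+* Γ(C, W) :=
  ((Scheme.ΓSpecIso (CommRingCat.of k)).inv ≫ c.appLE ⊤ W (by simp)).hom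

theorem kHom_res {W W' : C.Opens} (h : W' ≤ W) (a : k) :
    (C.presheaf.map (homOfLE h).op).hom (kHom c W a) = kHom c W' a := by
  simp only [kHom]
  rw [← RingHom.comp_apply, ← CommRingCat.hom_comp, Category.assoc, Scheme.Hom.appLE_map]

/-- The `k`-algebra structure on the sections over an open subset. -/
@[reducible] def kAlgebra (W : C.Opens) : Algebra k Γ(C, W) := (kHom c W).toAlgebra

/-- A section, seen as a polynomial evaluation map. -/
def evalSec {W : C.Opens} (x : Γ(C, W)) : Polynomial k →+* Γ(C, W) :=
  Polynomial.eval₂RingHom (kHom c W) x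

theorem finiteType_kHom [LocallyOfFiniteType c] {W : C.Opens} (hW : IsAffineOpen W) :
    (kHom c W).FiniteType := by
  have h := c.finiteType_appLE (isAffineOpen_top _) hW (by simp : W ≤ c ⁻¹ᵁ ⊤)
  exact h.comp (RingHom.FiniteType.of_surjective _
    (Scheme.ΓSpecIso (CommRingCat.of k)).symm.commRingCatIsoToRingEquiv.surjective)

variable [SmoothOfRelativeDimension 1 c] [IsIntegral C]

include c in
/-- Every point has an affine neighbourhood with Dedekind ring of sections which is not finite
over the constants. -/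
theorem exists_dedekind_nhd (p : C) :
    ∃ V : C.Opens, IsAffineOpen V ∧ p ∈ V ∧ IsDedekindDomain Γ(C, V) ∧
      ∃ z : Γ(C, V), Function.Injective (evalSec c z) := by
  obtain ⟨U, hU, V, hV, hp, e, h⟩ :=
    SmoothOfRelativeDimension.exists_isStandardSmoothOfRelativeDimension (n := 1) (f := c) p
  obtain rfl : U = ⊤ := by
    refine eq_top_iff.mpr fun x _ ↦ ?_
    rw [show x = c p from Subsingleton.elim _ _]
    exact e hp
  have : Nonempty V := ⟨⟨p, hp⟩⟩
  have hf : (kHom c V).IsStandardSmoothOfRelativeDimension 1 := by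
    have := h.comp (RingHom.IsStandardSmoothOfRelativeDimension.equiv
      (Scheme.ΓSpecIso (CommRingCat.of k)).symm.commRingCatIsoToRingEquiv)
    exact this
  refine ⟨V, hV, hp, isDedekindDomain_of_isStandardSmooth hf, ?_⟩
  obtain ⟨g, hg, hge⟩ := hf.exists_etale_mvPolynomial
  refine ⟨g (MvPolynomial.X 0), ?_⟩
  have hinj : Function.Injective g := by
    algebraize [g]
    rw [injective_iff_map_eq_zero]
    intro f hf0
    by_contra hne
    have : Module.IsTorsionFree (MvPolynomial (Fin 1) k) Γ(C, V) := inferInstance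
    have h1 : f • (1 : Γ(C, V)) = 0 := by rw [Algebra.smul_def, mul_one]; exact hf0
    exact one_ne_zero ((smul_eq_zero.mp h1).resolve_left hne)
  have heq : evalSec c (g (MvPolynomial.X 0)) =
      g.comp (MvPolynomial.uniqueAlgEquiv k (Fin 1)).symm.toRingEquiv.toRingHom := by
    refine Polynomial.ringHom_ext (fun a ↦ ?_) ?_
    · simp [evalSec, ← hg]
    · simp [evalSec]
  rw [heq, RingHom.coe_comp]
  exact hinj.comp (RingEquiv.injective _)

omit [SmoothOfRelativeDimension 1 c] in
theorem eq_genericPoint_of_primeIdealOf_eq_bot {V : C.Opens} (hV : IsAffineOpen V) {p : C}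
    (hpV : p ∈ V) (h : (hV.primeIdealOf ⟨p, hpV⟩).asIdeal = ⊥) : p = genericPoint C := by
  have : Nonempty V := ⟨⟨p, hpV⟩⟩
  have hg : genericPoint C ∈ V :=
    ((genericPoint_spec C).mem_open_set_iff V.isOpen).mpr ⟨p, trivial, hpV⟩
  have h' : hV.primeIdealOf ⟨p, hpV⟩ = hV.primeIdealOf ⟨genericPoint C, hg⟩ := by
    rw [hV.primeIdealOf_genericPoint, genericPoint_eq_bot_of_affine]
    exact PrimeSpectrum.ext h
  simpa only [IsAffineOpen.fromSpec_primeIdealOf] using congrArg hV.fromSpec h'

include c in
/-- The local rings at non-generic points are discrete valuation rings. -/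
theorem isDiscreteValuationRing_stalk {p : C} (hp : p ≠ genericPoint C) :
    IsDiscreteValuationRing (C.presheaf.stalk p) := by
  obtain ⟨V, hV, hpV, hD, -⟩ := exists_dedekind_nhd c p
  have : Nonempty V := ⟨⟨p, hpV⟩⟩
  letI := TopCat.Presheaf.algebra_section_stalk C.presheaf (⟨p, hpV⟩ : V)
  have := hV.isLocalization_stalk ⟨p, hpV⟩
  refine IsLocalization.AtPrime.isDiscreteValuationRing_of_dedekind_domain Γ(C, V)
    (P := (hV.primeIdealOf ⟨p, hpV⟩).asIdeal) (fun h ↦ hp ?_) _
  exact eq_genericPoint_of_primeIdealOf_eq_bot hV hpV h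

include c in
/-- The local rings are valuation rings. -/
theorem valuationRing_stalk (p : C) : ValuationRing (C.presheaf.stalk p) := by
  rcases eq_or_ne p (genericPoint C) with rfl | hp
  · infer_instance
  · have := isDiscreteValuationRing_stalk c hp
    infer_instance

include c in
/-- Non-generic points are closed. -/
theorem isClosed_singleton_of_ne {p : C} (hp : p ≠ genericPoint C) :
    IsClosed ({p} : Set C) := by
  have : LocallyOfFiniteType c := by
    have := SmoothOfRelativeDimension.smooth 1 c
    infer_instance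
  have : JacobsonSpace C := LocallyOfFiniteType.jacobsonSpace c
  obtain ⟨V, hV, hpV, hD, -⟩ := exists_dedekind_nhd c p
  have : Nonempty V := ⟨⟨p, hpV⟩⟩
  have hne : (hV.primeIdealOf ⟨p, hpV⟩).asIdeal ≠ ⊥ :=
    fun h ↦ hp (eq_genericPoint_of_primeIdealOf_eq_bot hV hpV h)
  have hmax : IsClosed ({hV.primeIdealOf ⟨p, hpV⟩} : Set (PrimeSpectrum Γ(C, V))) :=
    (PrimeSpectrum.isClosed_singleton_iff_isMaximal _).mpr
      ((hV.primeIdealOf ⟨p, hpV⟩).isPrime.isMaximal hne)
  have hmem : hV.primeIdealOf ⟨p, hpV⟩ ∈ closedPoints (Spec Γ(C, V)) := hmax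
  rw [← hV.fromSpec.isOpenEmbedding.preimage_closedPoints] at hmem
  change hV.fromSpec (hV.primeIdealOf ⟨p, hpV⟩) ∈ closedPoints C at hmem
  rw [mem_closedPoints_iff, IsAffineOpen.fromSpec_primeIdealOf] at hmem
  exact hmem

variable [IsAlgClosed k]

include c in
/-- The sections over a non-empty affine open subset of the curve form a Dedekind domain. -/
theorem isDedekindDomain_of_isAffineOpen {W : C.Opens} (hW : IsAffineOpen W) [Nonempty W] :
    IsDedekindDomain Γ(C, W) := by
  have : LocallyOfFiniteType c := by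
    have := SmoothOfRelativeDimension.smooth 1 c
    infer_instance
  have hft := finiteType_kHom c hW
  letI := kAlgebra c W
  have : Algebra.FiniteType k Γ(C, W) := hft
  have : IsNoetherianRing Γ(C, W) := Algebra.FiniteType.isNoetherianRing k _
  have : IsDedekindDomainDvr Γ(C, W) := by
    refine { toIsNoetherian := ‹IsNoetherianRing Γ(C, W)›,
             is_dvr_at_nonzero_prime := fun P hP hPp ↦ ?_ }
    let y : PrimeSpectrum Γ(C, W) := ⟨P, hPp⟩
    have hy : hW.fromSpec y ∈ W := by
      have : hW.fromSpec y ∈ Set.range hW.fromSpec := ⟨y, rfl⟩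
      rwa [hW.range_fromSpec] at this
    have hne : hW.fromSpec y ≠ genericPoint C := fun h ↦ hP (by
      have hgp := hW.primeIdealOf_genericPoint
      rw [genericPoint_eq_bot_of_affine] at hgp
      have : y = hW.primeIdealOf ⟨hW.fromSpec y, hy⟩ :=
        hW.fromSpec.isOpenEmbedding.injective (by rw [IsAffineOpen.fromSpec_primeIdealOf])
      have h2 : y = ⊥ := by rw [this]; simp only [h, hgp]
      exact congrArg PrimeSpectrum.asIdeal h2)
    have := isDiscreteValuationRing_stalk c hne
    letI := TopCat.Presheaf.algebra_section_stalk C.presheaf (⟨hW.fromSpec y, hy⟩ : W)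
    have : IsLocalization.AtPrime (C.presheaf.stalk (hW.fromSpec y)) P :=
      hW.isLocalization_stalk' y hy
    exact IsDiscreteValuationRing.RingEquivClass.isDiscreteValuationRing
      (IsLocalization.algEquiv P.primeCompl (C.presheaf.stalk (hW.fromSpec y))
        (Localization.AtPrime P)).toRingEquiv
  infer_instance

variable [IsProper c]

omit [SmoothOfRelativeDimension 1 c] in
include c in
/-- Global functions on the curve are constant. -/
theorem exists_const (a : Γ(C, ⊤)) : ∃ r : k, a = kHom c ⊤ r := by
  have hfin : (kHom c ⊤).Finite :=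
    (finite_appTop_of_universallyClosed k c).comp (RingHom.Finite.of_surjective _
      (Scheme.ΓSpecIso (CommRingCat.of k)).symm.commRingCatIsoToRingEquiv.surjective) |> fun h ↦ by
        simpa [kHom, Scheme.Hom.appLE] using h
  letI := (kHom c ⊤).toAlgebra
  have : Module.Finite k Γ(C, ⊤) := hfin
  have : Algebra.IsIntegral k Γ(C, ⊤) := Algebra.IsIntegral.of_finite k _
  obtain ⟨r, hr⟩ := (IsAlgClosed.algebraMap_bijective_of_isIntegral (k := k)
    (K := Γ(C, ⊤))).surjective a
  exact ⟨r, hr.symm⟩

end Fermat.Agent.Picard.Curve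

end
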