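/-
S25, part (C): the domain of a non-constant rational function on a smooth proper curve is finite
over the affine line.
-/
import Fermat.Agent.Picard.Curve.Basic

set_option autoImplicit false

noncomputable section

namespace Fermat.Agent.Picard.Curve

universe u

open CategoryTheory CategoryTheory.Limits AlgebraicGeometry TopologicalSpace

variable {k : Type u} [Field k] {C : Scheme.{u}} [IsIntegral C]

/-- The opens on which a rational function is regular. -/
def IsRegularOn (z : C.functionField) (W : C.Opens) : Prop :=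
  ∃ (_ : Nonempty W) (s : Γ(C, W)), C.germToFunctionField W s = z

/-- The domain of a rational function. -/
def dom (z : C.functionField) : C.Opens := ⨆ W : {W : C.Opens // IsRegularOn z W}, W.1

theorem mem_dom_of_germ {z : C.functionField} {W : C.Opens} [Nonempty W] {p : C} (hp : p ∈ W)
    (s : Γ(C, W)) (hs : C.germToFunctionField W s = z) : p ∈ dom z :=
  le_iSup (fun W : {W : C.Opens // IsRegularOn z W} ↦ W.1) ⟨W, ‹_›, s, hs⟩ hp

theorem genericPoint_mem_dom (z : C.functionField) : genericPoint C ∈ dom z := by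
  obtain ⟨W, hW, s, hs⟩ := C.presheaf.exists_germ_eq z
  have : Nonempty W := ⟨⟨_, hW⟩⟩
  exact mem_dom_of_germ hW s hs

instance (z : C.functionField) : Nonempty (dom z) := ⟨⟨_, genericPoint_mem_dom z⟩⟩

theorem germToFunctionField_res {W W' : C.Opens} [Nonempty W] [Nonempty W'] (h : W' ≤ W)
    (s : Γ(C, W)) :
    C.germToFunctionField W' (C.presheaf.map (homOfLE h).op s) = C.germToFunctionField W s :=
  C.presheaf.germ_res_apply (homOfLE h) _ _ s

theorem exists_domSec (z : C.functionField) :
    ∃ s : Γ(C, dom z), C.germToFunctionField (dom z) s = z := by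
  choose hW sf hsf using fun W : {W : C.Opens // IsRegularOn z W} ↦ W.2
  have hcompat : TopCat.Presheaf.IsCompatible C.sheaf.1
      (fun W : {W : C.Opens // IsRegularOn z W} ↦ W.1) sf := by
    intro i j
    have hgi : genericPoint C ∈ i.1 :=
      ((genericPoint_spec C).mem_open_set_iff i.1.isOpen).mpr (by simpa using hW i)
    have hgj : genericPoint C ∈ j.1 :=
      ((genericPoint_spec C).mem_open_set_iff j.1.isOpen).mpr (by simpa using hW j)
    have : Nonempty (i.1 ⊓ j.1 : C.Opens) := ⟨⟨_, hgi, hgj⟩⟩
    have := hW i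
    have := hW j
    exact C.germToFunctionField_injective (i.1 ⊓ j.1)
      ((germToFunctionField_res inf_le_left (sf i)).trans
        ((hsf i).trans ((hsf j).symm.trans (germToFunctionField_res inf_le_right (sf j)).symm)))
  obtain ⟨s, hs, -⟩ := C.sheaf.existsUnique_gluing'
    (fun W : {W : C.Opens // IsRegularOn z W} ↦ W.1) (dom z)
    (fun W ↦ homOfLE (le_iSup (fun W : {W : C.Opens // IsRegularOn z W} ↦ W.1) W)) le_rfl sf
    hcompat
  refine ⟨s, ?_⟩
  obtain ⟨W, hWz, t, ht⟩ := C.presheaf.exists_germ_eq z
  have : Nonempty W := ⟨⟨_, hWz⟩⟩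
  let i : {W : C.Opens // IsRegularOn z W} := ⟨W, this, t, ht⟩
  have hle : W ≤ dom z := le_iSup (fun W : {W : C.Opens // IsRegularOn z W} ↦ W.1) i
  rw [← germToFunctionField_res hle s]
  exact (congrArg (C.germToFunctionField W) (hs i)).trans (hsf i)

/-- A rational function as a regular function on its domain. -/
def domSec (z : C.functionField) : Γ(C, dom z) := (exists_domSec z).choose

theorem germ_domSec (z : C.functionField) : C.germToFunctionField (dom z) (domSec z) = z :=
  (exists_domSec z).choose_spec

theorem mem_dom_iff (z : C.functionField) (p : C) :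
    p ∈ dom z ↔ ∃ t : C.presheaf.stalk p, algebraMap _ C.functionField t = z := by
  constructor
  · intro hp
    exact ⟨C.presheaf.germ (dom z) p hp (domSec z),
      by rw [Scheme.algebraMap_germ_eq_germToFunctionField, germ_domSec]⟩
  · rintro ⟨t, rfl⟩
    obtain ⟨W, hW, s, rfl⟩ := C.presheaf.exists_germ_eq t
    have : Nonempty W := ⟨⟨_, hW⟩⟩
    exact mem_dom_of_germ hW s (Scheme.algebraMap_germ_eq_germToFunctionField C hW s).symm

theorem basicOpen_domSec {z : C.functionField} (hz : z ≠ 0) :
    C.basicOpen (domSec z) = dom z ⊓ dom z⁻¹ := by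
  ext p
  constructor
  · intro hp
    have hpd : p ∈ dom z := C.basicOpen_le _ hp
    refine ⟨hpd, ?_⟩
    obtain ⟨t, ht⟩ := ((C.mem_basicOpen _ p hpd).mp hp).exists_left_inv
    refine (mem_dom_iff _ p).mpr ⟨t, eq_inv_of_mul_eq_one_left ?_⟩
    have := congrArg (algebraMap _ C.functionField) ht
    rwa [map_mul, map_one, Scheme.algebraMap_germ_eq_germToFunctionField, germ_domSec] at this
  · rintro ⟨hpd, hpi⟩
    refine (C.mem_basicOpen _ p hpd).mpr ?_
    obtain ⟨t, ht⟩ := (mem_dom_iff _ p).mp hpi
    refine IsUnit.of_mul_eq_one t (IsFractionRing.injective _ C.functionField ?_)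
    rw [map_mul, Scheme.algebraMap_germ_eq_germToFunctionField, germ_domSec, ht, map_one,
      mul_inv_cancel₀ hz]

variable (c : C ⟶ Spec (CommRingCat.of k))

/-- The constants inside the function field. -/
def constFF : k →+* C.functionField :=
  haveI : Nonempty (⊤ : C.Opens) := ⟨⟨genericPoint C, trivial⟩⟩
  (C.germToFunctionField ⊤).hom.comp (kHom c ⊤)

theorem germ_kHom (W : C.Opens) [Nonempty W] (a : k) :
    C.germToFunctionField W (kHom c W a) = constFF c a := by
  have : Nonempty (⊤ : C.Opens) := ⟨⟨genericPoint C, trivial⟩⟩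
  rw [← kHom_res c le_top a, constFF, RingHom.comp_apply]
  exact germToFunctionField_res le_top _

theorem germ_evalSec {W : C.Opens} [Nonempty W] (s : Γ(C, W)) (f : Polynomial k) :
    C.germToFunctionField W (evalSec c s f) =
      f.eval₂ (constFF c) (C.germToFunctionField W s) := by
  rw [evalSec, Polynomial.coe_eval₂RingHom]
  refine (Polynomial.hom_eval₂ f (kHom c W) (C.germToFunctionField W).hom s).trans ?_
  congr 1
  exact RingHom.ext (germ_kHom c W)

variable [IsAlgClosed k]

theorem injective_eval₂_of_notMem {z : C.functionField} (hz : z ∉ (constFF c).range) :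
    Function.Injective (Polynomial.eval₂RingHom (constFF c) z) := by
  let : Algebra k C.functionField := (constFF c).toAlgebra
  change Function.Injective (Polynomial.aeval (R := k) z)
  refine transcendental_iff_injective.mp fun halg ↦ hz ?_
  exact minpoly.degree_eq_one_iff.mp
    (IsAlgClosed.degree_eq_one_of_irreducible k (minpoly.irreducible halg.isIntegral))

variable [SmoothOfRelativeDimension 1 c] {c}

variable (c) in
include c in
omit [IsAlgClosed k] in
theorem dom_sup_dom_inv (z : C.functionField) : dom z ⊔ dom z⁻¹ = ⊤ := by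
  refine eq_top_iff.mpr fun p _ ↦ ?_
  have := valuationRing_stalk c p
  rcases ValuationRing.isInteger_or_isInteger (C.presheaf.stalk p) z with h | h
  · exact Or.inl ((mem_dom_iff z p).mpr h)
  · exact Or.inr ((mem_dom_iff _ p).mpr h)

variable (c) in
/-- A rational function as a map from its domain to the affine line. -/
def toLine (z : C.functionField) : (dom z).toScheme ⟶ Spec (CommRingCat.of (Polynomial k)) :=
  (dom z).toSpecΓ ≫ Spec.map (CommRingCat.ofHom (evalSec c (domSec z)))

omit [IsAlgClosed k] [SmoothOfRelativeDimension 1 c] in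
theorem toLine_comp (z : C.functionField) :
    toLine c z ≫ Spec.map (CommRingCat.ofHom Polynomial.C) = (dom z).ι ≫ c := by
  have h1 : toLine c z ≫ Spec.map (CommRingCat.ofHom Polynomial.C) =
      (dom z).toSpecΓ ≫ Spec.map (CommRingCat.ofHom (kHom c (dom z))) := by
    rw [toLine, Category.assoc, ← Spec.map_comp, ← CommRingCat.ofHom_comp]
    congr 3
    exact RingHom.ext fun a ↦ Polynomial.eval₂_C _ _
  have h2 : ((dom z).ι ≫ c).appTop ≫ (dom z).topIso.hom = c.appLE ⊤ (dom z) (by simp) := by
    rw [Scheme.Hom.comp_appTop, Category.assoc, Scheme.Opens.ι_appTop, Scheme.Opens.topIso,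
      Functor.mapIso_hom, Scheme.Hom.appLE]
    erw [← Functor.map_comp]
    rfl
  rw [h1, kHom, CommRingCat.ofHom_hom, Spec.map_comp, ← Category.assoc, ← h2, Spec.map_comp,
    Scheme.Opens.toSpecΓ]
  simp only [Category.assoc]
  rw [← Spec.map_comp_assoc, Iso.hom_inv_id, Spec.map_id, Category.id_comp, ← Category.assoc,
    ← Scheme.toSpecΓ_naturality, Category.assoc, Category.assoc,
    toSpecΓ_SpecMap_ΓSpecIso_inv, Category.comp_id]

omit [IsAlgClosed k] [SmoothOfRelativeDimension 1 c] in
theorem toLine_appTop (z : C.functionField) (f : Polynomial k) :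
    (toLine c z).appTop ((Scheme.ΓSpecIso (CommRingCat.of (Polynomial k))).inv f) =
      (dom z).topIso.inv (evalSec c (domSec z) f) := by
  have h : (Scheme.ΓSpecIso (CommRingCat.of (Polynomial k))).inv ≫ (toLine c z).appTop =
      CommRingCat.ofHom (evalSec c (domSec z)) ≫ (dom z).topIso.inv := by
    rw [toLine, Scheme.Hom.comp_appTop, Scheme.Opens.toSpecΓ_appTop,
      ← Scheme.ΓSpecIso_inv_naturality_assoc, Iso.inv_hom_id_assoc]
  exact congrArg (fun g : CommRingCat.of (Polynomial k) ⟶ _ ↦ g f) h

variable [IsProper c]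

theorem existence_toLine {z : C.functionField} (hz : z ≠ 0) :
    ValuativeCriterion.Existence (toLine c z) := by
  intro S
  have hc : ValuativeCriterion.Existence c := by
    have h : UniversallyClosed c := inferInstance
    rw [UniversallyClosed.eq_valuativeCriterion] at h
    exact h.1
  let S' : ValuativeCommSq c := ⟨S.R, S.K, S.i₁ ≫ (dom z).ι,
    S.i₂ ≫ Spec.map (CommRingCat.ofHom Polynomial.C),
    ⟨by rw [Category.assoc, ← toLine_comp, S.commSq.w_assoc]⟩⟩
  obtain ⟨⟨⟨l, hl₁, hl₂⟩⟩⟩ := hc S'
  change Spec (CommRingCat.of S.R) ⟶ C at l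
  change Spec.map (CommRingCat.ofHom (algebraMap S.R S.K)) ≫ l = S.i₁ ≫ (dom z).ι at hl₁
  let t : Spec (CommRingCat.of S.R) := IsLocalRing.closedPoint S.R
  have hU : l t ∈ dom z := by
    by_contra hnot
    have hVt : l t ∈ dom z⁻¹ := by
      have h : l t ∈ dom z ⊔ dom z⁻¹ := by rw [dom_sup_dom_inv c z]; trivial
      exact h.resolve_left hnot
    have hV : ⊤ ≤ l ⁻¹ᵁ dom z⁻¹ := ((IsLocalRing.closedPoint_mem_iff _).mp hVt).ge
    set y := domSec z⁻¹
    let η : S.R := (Scheme.ΓSpecIso (CommRingCat.of S.R)).hom (l.appLE (dom z⁻¹) ⊤ hV y)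
    have hη : ¬IsUnit η := by
      intro hu
      have hu' : IsUnit (l.appLE (dom z⁻¹) ⊤ hV y) := by
        simpa [η] using hu.map (Scheme.ΓSpecIso (CommRingCat.of S.R)).inv.hom
      have hb := (Spec (CommRingCat.of S.R)).basicOpen_of_isUnit hu'
      rw [Scheme.basicOpen_appLE] at hb
      have ht : t ∈ ⊤ ⊓ l ⁻¹ᵁ C.basicOpen y := by rw [hb]; trivial
      have h2 := ((basicOpen_domSec (inv_ne_zero hz)).le ht.2).2
      rw [inv_inv] at h2
      exact hnot h2
    let φ := Spec.preimage S.i₂
    let ξ : S.R := φ (Polynomial.X : Polynomial k)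
    let a := CommRingCat.ofHom (algebraMap S.R S.K)
    have hξη : algebraMap S.R S.K η * algebraMap S.R S.K ξ = 1 := by
      let j := S.i₁ ≫ (dom z).ι
      have hjU : ⊤ ≤ j ⁻¹ᵁ dom z := fun q _ ↦ (S.i₁ q).2
      have hjV : ⊤ ≤ j ⁻¹ᵁ dom z⁻¹ := fun q _ ↦ by
        change j q ∈ dom z⁻¹
        rw [show j = Spec.map a ≫ l from hl₁.symm]
        exact hV trivial
      have hjUV : ⊤ ≤ j ⁻¹ᵁ (dom z ⊓ dom z⁻¹) := fun q hq ↦ ⟨hjU hq, hjV hq⟩
      have e1 : algebraMap S.R S.K η =
          (Scheme.ΓSpecIso (CommRingCat.of S.K)).hom (j.appLE _ ⊤ hjV y) := by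
        have h : j.appLE _ ⊤ hjV = l.appLE _ ⊤ hV ≫ (Spec.map a).appTop := by
          have aux : ∀ (j' : Spec (CommRingCat.of S.K) ⟶ C) (hj' : ⊤ ≤ j' ⁻¹ᵁ dom z⁻¹),
              j' = Spec.map a ≫ l → j'.appLE _ ⊤ hj' = l.appLE _ ⊤ hV ≫ (Spec.map a).appTop := by
            rintro j' hj' rfl
            rw [← Scheme.Hom.appLE_comp_appLE (Spec.map a) l (dom z⁻¹) ⊤ ⊤ hV (by simp)]
            simp [Scheme.Hom.appLE]
          exact aux j hjV hl₁.symm
        rw [h]
        exact (congrArg (fun g : Γ(Spec (CommRingCat.of S.R), ⊤) ⟶ CommRingCat.of S.K ↦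
          g (l.appLE _ ⊤ hV y)) (Scheme.ΓSpecIso_naturality a)).symm
      have e2 : algebraMap S.R S.K ξ =
          (Scheme.ΓSpecIso (CommRingCat.of S.K)).hom (j.appLE _ ⊤ hjU (domSec z)) := by
        have h : j.appLE _ ⊤ hjU = (dom z).topIso.inv ≫ S.i₁.appTop := by
          rw [← Scheme.Hom.appLE_comp_appLE S.i₁ (dom z).ι (dom z) ⊤ ⊤ (by simp) (by simp)]
          simp [Scheme.Opens.topIso, Scheme.Hom.appLE]
          erw [← Functor.map_comp_assoc]
          rfl
        have h' : S.i₁.appTop ((dom z).topIso.inv (domSec z)) = (Spec.map a).appTop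
            ((Spec.map φ).appTop ((Scheme.ΓSpecIso _).inv (Polynomial.X : Polynomial k))) := by
          have := toLine_appTop (c := c) z Polynomial.X
          rw [show evalSec c (domSec z) Polynomial.X = domSec z from Polynomial.eval₂_X _ _] at this
          rw [← this, ← ConcreteCategory.comp_apply, ← Scheme.Hom.comp_appTop, S.commSq.w,
            Spec.map_preimage]
          simp [a]
        rw [h, ConcreteCategory.comp_apply, h']
        simp only [← ConcreteCategory.comp_apply, ← Category.assoc]
        rw [Category.assoc, Category.assoc, Scheme.ΓSpecIso_naturality,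
          Scheme.ΓSpecIso_naturality_assoc, Iso.inv_hom_id_assoc]
        rfl
      rw [e1, e2, ← map_mul, ← j.map_appLE (i := (homOfLE inf_le_right).op) hjUV,
        ← j.map_appLE (i := (homOfLE inf_le_left).op) hjUV]
      simp only [ConcreteCategory.comp_apply, ← map_mul]
      have hone : (C.presheaf.map (homOfLE (inf_le_right : dom z ⊓ dom z⁻¹ ≤ _)).op) y *
          (C.presheaf.map (homOfLE (inf_le_left : dom z ⊓ dom z⁻¹ ≤ _)).op) (domSec z) = 1 := by
        have : Nonempty (dom z ⊓ dom z⁻¹ : C.Opens) :=
          ⟨⟨_, genericPoint_mem_dom z, genericPoint_mem_dom _⟩⟩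
        apply C.germToFunctionField_injective (dom z ⊓ dom z⁻¹)
        rw [map_mul, map_one, germToFunctionField_res, germToFunctionField_res, germ_domSec,
          germ_domSec, inv_mul_cancel₀ hz]
      rw [hone, map_one, map_one]
    rw [← map_mul, ← map_one (algebraMap S.R S.K)] at hξη
    exact hη (IsUnit.of_mul_eq_one _ (IsFractionRing.injective S.R S.K hξη))
  have hrange : Set.range l ⊆ Set.range (dom z).ι := by
    rintro - ⟨q, rfl⟩
    rw [Scheme.Opens.range_ι]
    exact ((IsLocalRing.closedPoint_mem_iff (l ⁻¹ᵁ dom z)).mp hU).ge (x := q) trivial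
  refine ⟨⟨⟨IsOpenImmersion.lift (dom z).ι l hrange, ?_, ?_⟩⟩⟩
  · rw [← cancel_mono (dom z).ι, Category.assoc, IsOpenImmersion.lift_fac, hl₁]
  · set l' := IsOpenImmersion.lift (dom z).ι l hrange
    have hl' : Spec.map (CommRingCat.ofHom (algebraMap S.R S.K)) ≫ l' = S.i₁ := by
      rw [← cancel_mono (dom z).ι, Category.assoc, IsOpenImmersion.lift_fac, hl₁]
    have h : Spec.map (CommRingCat.ofHom (algebraMap S.R S.K)) ≫ l' ≫ toLine c z =
        Spec.map (CommRingCat.ofHom (algebraMap S.R S.K)) ≫ S.i₂ := by
      rw [← Category.assoc, hl', S.commSq.w]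
    rw [← Spec.map_preimage (l' ≫ toLine c z), ← Spec.map_preimage S.i₂]
    rw [← Spec.map_preimage (l' ≫ toLine c z), ← Spec.map_preimage S.i₂, ← Spec.map_comp,
      ← Spec.map_comp] at h
    congr 1
    refine CommRingCat.hom_ext (RingHom.ext fun f ↦ IsFractionRing.injective S.R S.K ?_)
    exact congrArg (fun g : CommRingCat.of (Polynomial k) ⟶ CommRingCat.of S.K ↦ g f)
      (Spec.map_injective h)

/-- The domain of a non-constant rational function is affine and finite over the affine line. -/
theorem isFinite_toLine {z : C.functionField} (hz : z ∉ (constFF c).range) :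
    IsFinite (toLine c z) := by
  have hz0 : z ≠ 0 := fun h ↦ hz ⟨0, by rw [map_zero, h]⟩
  have : LocallyOfFiniteType (toLine c z ≫ Spec.map (CommRingCat.ofHom Polynomial.C)) := by
    rw [toLine_comp]; infer_instance
  have : LocallyOfFiniteType (toLine c z) := locallyOfFiniteType_of_comp _
    (Spec.map (CommRingCat.ofHom Polynomial.C))
  have : IsLocallyNoetherian C := LocallyOfFiniteType.isLocallyNoetherian c
  have : CompactSpace C := QuasiCompact.compactSpace_of_compactSpace c
  have : IsNoetherian C := { }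
  have : CompactSpace (dom z) :=
    isCompact_iff_compactSpace.mp (NoetherianSpace.isCompact (dom z : Set C))
  have : QuasiCompact (toLine c z) := quasiCompact_iff_compactSpace _ |>.mpr this
  have : IsSeparated (toLine c z ≫ Spec.map (CommRingCat.ofHom Polynomial.C)) := by
    rw [toLine_comp]; infer_instance
  have : IsSeparated (toLine c z) := IsSeparated.of_comp _
    (Spec.map (CommRingCat.ofHom Polynomial.C))
  have : UniversallyClosed (toLine c z) :=
    UniversallyClosed.of_valuativeCriterion _ (existence_toLine hz0)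
  have : IsProper (toLine c z) := { }
  have hfib : ∀ s, (toLine c z ⁻¹' {s}).Finite := by
    intro s
    let g : (dom z).toScheme := (⟨genericPoint C, genericPoint_mem_dom z⟩ : dom z)
    have hg : (toLine c z g).asIdeal = ⊥ := by
      rw [eq_bot_iff]
      intro f hf
      by_contra hne
      have hmem : toLine c z g ∉ PrimeSpectrum.basicOpen f := fun h ↦ h hf
      apply hmem
      have hne' : f.eval₂ (constFF c) z ≠ 0 := fun h ↦ hne
        (Ideal.mem_bot.mpr (injective_eval₂_of_notMem c hz (h.trans (map_zero _).symm)))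
      change g ∈ toLine c z ⁻¹ᵁ PrimeSpectrum.basicOpen f
      rw [← basicOpen_eq_of_affine, Scheme.preimage_basicOpen_top, toLine_appTop]
      have key : (C.presheaf.germ (dom z) (genericPoint C) (genericPoint_mem_dom z))
          (evalSec c (domSec z) f) ≠ 0 := by
        change C.germToFunctionField (dom z) (evalSec c (domSec z) f) ≠ 0
        rwa [germ_evalSec, germ_domSec]
      have hb : genericPoint C ∈ C.basicOpen (evalSec c (domSec z) f) :=
        (C.mem_basicOpen _ _ (genericPoint_mem_dom z)).mpr (isUnit_iff_ne_zero.mpr key)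
      change g ∈ (dom z).toScheme.basicOpen ((dom z).topIso.inv (evalSec c (domSec z) f))
      rw [← Scheme.Opens.ι_image_basicOpen_topIso_inv] at hb
      obtain ⟨q, hq, hqe⟩ := hb
      exact (Subtype.ext hqe : q = g) ▸ hq
    have hclosed : ∀ q : (dom z).toScheme, q ≠ g → IsClosed ({q} : Set (dom z).toScheme) := by
      intro q hq
      have := isClosed_singleton_of_ne c (p := (dom z).ι q) fun h ↦ hq (Subtype.ext h)
      have h2 := this.preimage (dom z).ι.continuous
      rwa [← Set.image_singleton, Set.preimage_image_eq _ (dom z).ι.isOpenEmbedding.injective] at h2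
    by_cases hs : s = toLine c z g
    · refine (Set.finite_singleton g).subset fun q hq ↦ ?_
      by_contra hne
      have : JacobsonSpace (Spec (CommRingCat.of (Polynomial k))) := inferInstance
      have h2 := (toLine c z).closePoints_subset_preimage_closedPoints (hclosed q hne)
      rw [Set.mem_preimage, mem_closedPoints_iff, Set.mem_singleton_iff.mp hq, hs] at h2
      have h3 := (PrimeSpectrum.isClosed_singleton_iff_isMaximal _).mp h2
      rw [hg] at h3
      exact Ring.not_isField_iff_exists_ideal_bot_lt_and_lt_top.mp (Polynomial.not_isField k)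
        |>.elim fun I hI ↦ (h3.eq_of_le hI.2.ne hI.1.le ▸ hI.1).false
    · have hsc : IsClosed ({s} : Set (Spec (CommRingCat.of (Polynomial k)))) := by
        refine (PrimeSpectrum.isClosed_singleton_iff_isMaximal _).mpr (s.isPrime.isMaximal ?_)
        exact fun h ↦ hs (PrimeSpectrum.ext (h.trans hg.symm))
      have : NoetherianSpace (dom z).toScheme :=
        (dom z).ι.isOpenEmbedding.isInducing.noetherianSpace
      obtain ⟨T, hTf, hTc, hTi, hTU⟩ :=
        NoetherianSpace.exists_finite_set_isClosed_irreducible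
          (hsc.preimage (toLine c z).continuous)
      rw [hTU]
      refine hTf.sUnion fun T' hT' ↦ ?_
      have hgen := (hTi T' hT').isGenericPoint_genericPoint (hTc T' hT')
      have hne : (hTi T' hT').genericPoint ≠ g := fun h ↦ hs (by
        have hm : g ∈ toLine c z ⁻¹' {s} := hTU ▸ ⟨T', hT', h ▸ hgen.mem⟩
        exact hm.symm)
      rw [← hgen.def, (hclosed _ hne).closure_eq]
      exact Set.finite_singleton _
  have : LocallyQuasiFinite (toLine c z) :=
    locallyQuasiFinite_iff_finite_preimage_singleton.mpr hfib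
  exact IsFinite.of_isProper_of_locallyQuasiFinite _

end Fermat.Agent.Picard.Curve

end
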