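/-
S25, part (C): two affine charts of a smooth proper curve, finite over the affine line, and the
two-chart presentation they define.
-/
import Fermat.Agent.Picard.Data
import Fermat.Agent.Picard.Curve.Dom
import Fermat.Prelude.Def_JacJ1Iface

set_option autoImplicit false

noncomputable section

namespace Fermat.Agent.Picard.Curve

universe u

open CategoryTheory CategoryTheory.Limits AlgebraicGeometry TopologicalSpace

variable {k : Type u} [Field k] {C : Scheme.{u}} (c : C ⟶ Spec (CommRingCat.of k))

/-- Two affine charts covering the curve, finite over the affine line and its opposite chart. -/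
structure Charts (ε : Spec (CommRingCat.of k) ⟶ C) where
  U : C.Opens
  V : C.Opens
  affineU : IsAffineOpen U
  affineV : IsAffineOpen V
  cover : U ⊔ V = ⊤
  x : Γ(C, U)
  y : Γ(C, V)
  basicOpen_x : C.basicOpen x = U ⊓ V
  basicOpen_y : C.basicOpen y = U ⊓ V
  x_mul_y : (C.presheaf.map (homOfLE (inf_le_left : U ⊓ V ≤ U)).op).hom x *
    (C.presheaf.map (homOfLE (inf_le_right : U ⊓ V ≤ V)).op).hom y = 1
  finite_x : (evalSec c x).Finite
  finite_y : (evalSec c y).Finite
  injective_x : Function.Injective (evalSec c x)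
  injective_y : Function.Injective (evalSec c y)
  ε_mem : ⊤ ≤ ε ⁻¹ᵁ U

variable [IsAlgClosed k] [IsProper c] [SmoothOfRelativeDimension 1 c] [IsIntegral C]

include c in
theorem exists_nonconst_mem (p : C) (hp : p ≠ genericPoint C) :
    ∃ z : C.functionField, z ∉ (constFF c).range ∧ p ∈ dom z := by
  obtain ⟨V, hV, hpV, -, w, hw⟩ := exists_dedekind_nhd c p
  have : Nonempty V := ⟨⟨p, hpV⟩⟩
  refine ⟨C.germToFunctionField V w, ?_, mem_dom_of_germ hpV w rfl⟩
  rintro ⟨a, ha⟩
  have h1 : evalSec c w (Polynomial.X - Polynomial.C a) = 0 := by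
    apply C.germToFunctionField_injective V
    rw [germ_evalSec, map_zero]
    simp [ha]
  exact Polynomial.X_sub_C_ne_zero a (hw (h1.trans (map_zero _).symm))

/-- The finite map gives an affine domain, finite over the polynomial ring. -/
theorem isAffineOpen_dom {z : C.functionField} (hz : z ∉ (constFF c).range) :
    IsAffineOpen (dom z) ∧ (evalSec c (domSec z)).Finite := by
  have := isFinite_toLine (c := c) hz
  have hA : IsAffine (dom z).toScheme := isAffine_of_isAffineHom (toLine c z)
  refine ⟨hA, ?_⟩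
  have h1 := (toLine c z).finite_appTop
  have h2 : (CommRingCat.ofHom (evalSec c (domSec z))) =
      (Scheme.ΓSpecIso (CommRingCat.of (Polynomial k))).inv ≫ (toLine c z).appTop ≫
        (dom z).topIso.hom := by
    refine CommRingCat.hom_ext (RingHom.ext fun f ↦ ?_)
    simp only [CommRingCat.hom_comp, RingHom.comp_apply, CommRingCat.hom_ofHom]
    rw [toLine_appTop, Iso.inv_hom_id_apply]
  rw [show evalSec c (domSec z) = ((Scheme.ΓSpecIso (CommRingCat.of (Polynomial k))).inv ≫
    (toLine c z).appTop ≫ (dom z).topIso.hom).hom by rw [← h2]; rfl]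
  simp only [CommRingCat.hom_comp]
  exact ((RingHom.Finite.of_surjective _ (dom z).topIso.commRingCatIsoToRingEquiv.surjective).comp
    h1).comp (RingHom.Finite.of_surjective _
      (Scheme.ΓSpecIso (CommRingCat.of (Polynomial k))).symm.commRingCatIsoToRingEquiv.surjective)

theorem injective_evalSec {z : C.functionField} (hz : z ∉ (constFF c).range) :
    Function.Injective (evalSec c (domSec z)) := fun f g h ↦ by
  refine injective_eval₂_of_notMem c hz ?_
  have h' := congrArg (C.germToFunctionField (dom z)) h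
  rwa [germ_evalSec, germ_evalSec, germ_domSec] at h'

omit [IsAlgClosed k] [IsProper c] [SmoothOfRelativeDimension 1 c] in
theorem inv_notMem_range {z : C.functionField} (hz : z ∉ (constFF c).range) :
    z⁻¹ ∉ (constFF c).range := fun ⟨a, ha⟩ ↦ hz ⟨a⁻¹, by rw [map_inv₀, ha, inv_inv]⟩

/-- A smooth proper curve with a section has a pair of charts. -/
theorem exists_charts (ε : Spec (CommRingCat.of k) ⟶ C) (hε : ε ≫ c = 𝟙 _) :
    Nonempty (Charts c ε) := by
  let e : C := ε (IsLocalRing.closedPoint k)
  have he : ∀ q, ε q = e := fun q ↦ congrArg ε (Subsingleton.elim q _)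
  have hne : e ≠ genericPoint C := by
    intro heq
    -- the generic point is not closed, but the image of a section is
    have : IsClosedImmersion ε := isClosedImmersion_of_comp_eq_id _ _ hε
    have hc : IsClosed ({e} : Set C) := by
      have h := ε.isClosedEmbedding.isClosed_range
      rwa [show Set.range ε = {e} from Set.ext fun q ↦ ⟨fun ⟨t, ht⟩ ↦ ht.symm.trans (he t),
        fun hq ↦ ⟨_, hq.symm⟩⟩] at h
    have hall : ∀ q : C, q = e := fun q ↦ by
      have h := (genericPoint_spec C).specializes (Set.mem_univ q)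
      rw [← heq] at h
      exact h.mem_closed hc rfl
    obtain ⟨V, hV, hpV, -, w, hw⟩ := exists_dedekind_nhd c e
    obtain rfl : V = ⊤ := eq_top_iff.mpr fun q _ ↦ (hall q) ▸ hpV
    obtain ⟨r, hr⟩ := exists_const c w
    exact Polynomial.X_sub_C_ne_zero r
      (hw (by simp [evalSec, hr] : evalSec c w (Polynomial.X - Polynomial.C r) = evalSec c w 0))
  obtain ⟨z, hz, hez⟩ := exists_nonconst_mem c e hne
  have hz0 : z ≠ 0 := fun h ↦ hz ⟨0, by rw [map_zero, h]⟩
  have hzi := inv_notMem_range c hz
  refine ⟨{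
    U := dom z
    V := dom z⁻¹
    affineU := (isAffineOpen_dom c hz).1
    affineV := (isAffineOpen_dom c hzi).1
    cover := dom_sup_dom_inv c z
    x := domSec z
    y := domSec z⁻¹
    basicOpen_x := basicOpen_domSec hz0
    basicOpen_y := by rw [basicOpen_domSec (inv_ne_zero hz0), inv_inv, inf_comm]
    x_mul_y := ?_
    finite_x := (isAffineOpen_dom c hz).2
    finite_y := (isAffineOpen_dom c hzi).2
    injective_x := injective_evalSec c hz
    injective_y := injective_evalSec c hzi
    ε_mem := fun q _ ↦ ?_ }⟩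
  · have : Nonempty (dom z ⊓ dom z⁻¹ : C.Opens) :=
      ⟨⟨_, genericPoint_mem_dom z, genericPoint_mem_dom _⟩⟩
    apply C.germToFunctionField_injective (dom z ⊓ dom z⁻¹)
    rw [map_mul, map_one, germToFunctionField_res, germToFunctionField_res, germ_domSec,
      germ_domSec, mul_inv_cancel₀ hz0]
  · change ε q ∈ dom z
    rw [he q]
    exact hez

namespace Charts

variable {c} {ε : Spec (CommRingCat.of k) ⟶ C} (hε : ε ≫ c = 𝟙 _)

omit [IsAlgClosed k] [IsProper c] [SmoothOfRelativeDimension 1 c] in
theorem genericPoint_mem (D : Charts c ε) : genericPoint C ∈ D.U ⊓ D.V := by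
  have hU : Nonempty D.U := ⟨⟨ε (IsLocalRing.closedPoint k), D.ε_mem trivial⟩⟩
  have hgU : genericPoint C ∈ D.U :=
    ((genericPoint_spec C).mem_open_set_iff D.U.isOpen).mpr (by simpa using hU)
  have hx : D.x ≠ 0 := fun h ↦ Polynomial.X_ne_zero (D.injective_x (show evalSec c D.x Polynomial.X =
    evalSec c D.x 0 by rw [map_zero, evalSec, Polynomial.coe_eval₂RingHom, Polynomial.eval₂_X, h]))
  have hne := fun hb ↦ hx ((basicOpen_eq_bot_iff D.x).mp hb)
  rw [← D.basicOpen_x]
  refine ((genericPoint_spec C).mem_open_set_iff (C.basicOpen D.x).isOpen).mpr ?_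
  simpa [Set.nonempty_iff_ne_empty] using hne

theorem global_const (D : Charts c ε) (a : Γ(C, D.U)) (b : Γ(C, D.V))
    (h : (C.presheaf.map (homOfLE (inf_le_left : D.U ⊓ D.V ≤ D.U)).op).hom a =
      (C.presheaf.map (homOfLE (inf_le_right : D.U ⊓ D.V ≤ D.V)).op).hom b) :
    ∃ r : k, a = kHom c D.U r := by
  have hcompat : TopCat.Presheaf.IsCompatible C.sheaf.1 (fun i : Bool ↦ cond i D.U D.V)
      (fun i ↦ Bool.rec b a i) := by
    intro i j
    cases i <;> cases j
    · rfl
    · have h' := congrArg (C.presheaf.map (eqToHom (inf_comm D.V D.U)).op).hom h.symm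
      rw [← CommRingCat.comp_apply, ← CommRingCat.comp_apply, ← Functor.map_comp,
        ← Functor.map_comp] at h'
      exact h'
    · exact h
    · rfl
  obtain ⟨g, hg, -⟩ := C.sheaf.existsUnique_gluing' (fun i : Bool ↦ cond i D.U D.V) ⊤
    (fun i ↦ homOfLE le_top) (by
      rw [← D.cover, sup_le_iff]
      exact ⟨le_iSup (fun i : Bool ↦ cond i D.U D.V) true, le_iSup (fun i : Bool ↦ cond i D.U D.V) false⟩)
    (fun i ↦ Bool.rec b a i) hcompat
  obtain ⟨r, rfl⟩ := exists_const c g
  exact ⟨r, (hg true).symm.trans (kHom_res c le_top r)⟩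

/-- The two-chart presentation attached to a pair of charts: `A = Γ(U)`, `B = Γ(V)`,
`W = Γ(U ⊓ V)`, the algebra structures being the constants and the restriction maps. -/
def twoChart (D : Charts c ε) : TwoChart k :=
  letI := kAlgebra c D.U
  letI := kAlgebra c D.V
  letI := kAlgebra c (D.U ⊓ D.V)
  letI : Algebra Γ(C, D.U) Γ(C, D.U ⊓ D.V) :=
    (C.presheaf.map (homOfLE (inf_le_left : D.U ⊓ D.V ≤ D.U)).op).hom.toAlgebra
  letI : Algebra Γ(C, D.V) Γ(C, D.U ⊓ D.V) :=
    (C.presheaf.map (homOfLE (inf_le_right : D.U ⊓ D.V ≤ D.V)).op).hom.toAlgebra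
  haveI : Nonempty D.U := ⟨⟨ε.base default, D.ε_mem trivial⟩⟩
  haveI : Nonempty D.V := ⟨⟨genericPoint C, D.genericPoint_mem.2⟩⟩
  { A := Γ(C, D.U)
    B := Γ(C, D.V)
    W := Γ(C, D.U ⊓ D.V)
    towerAW := IsScalarTower.of_algebraMap_eq fun a ↦ (kHom_res c _ a).symm
    towerBW := IsScalarTower.of_algebraMap_eq fun a ↦ (kHom_res c _ a).symm
    dedekindA := isDedekindDomain_of_isAffineOpen c D.affineU
    dedekindB := isDedekindDomain_of_isAffineOpen c D.affineV
    x := D.x
    y := D.y
    x_mul_y := D.x_mul_y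
    locA := D.affineU.isLocalization_of_eq_basicOpen D.x (homOfLE inf_le_left) D.basicOpen_x.symm
    locB := D.affineV.isLocalization_of_eq_basicOpen D.y (homOfLE inf_le_right) D.basicOpen_y.symm
    finite_x := D.finite_x
    finite_y := D.finite_y
    injective_x := D.injective_x
    injective_y := D.injective_y
    global_const := fun a b h ↦ D.global_const a b h
    ε := { toRingHom := (ε.appLE D.U ⊤ D.ε_mem ≫ (Scheme.ΓSpecIso (CommRingCat.of k)).hom).hom
           commutes' := fun r ↦ by
            change ((Scheme.ΓSpecIso (CommRingCat.of k)).inv ≫ c.appLE ⊤ D.U (by simp) ≫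
              ε.appLE D.U ⊤ D.ε_mem ≫ (Scheme.ΓSpecIso (CommRingCat.of k)).hom).hom r = r
            rw [Scheme.Hom.appLE_comp_appLE_assoc]
            have aux : ∀ (g : Spec (CommRingCat.of k) ⟶ Spec (CommRingCat.of k)) (e),
                g = 𝟙 _ → g.appLE ⊤ ⊤ e = 𝟙 _ := by
              rintro g e rfl
              simp [Scheme.Hom.appLE]
            rw [aux _ _ hε]
            simp } }

end Charts

end Fermat.Agent.Picard.Curve

end
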