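/-
S25, part (C): every smooth proper integral curve over an algebraically closed field with a
section has a two chart presentation.
-/
import Fermat.Agent.Picard.CurveModelDef
import Fermat.Agent.Picard.Curve.Charts

set_option autoImplicit false

noncomputable section

namespace Fermat.Agent.Picard

universe u

open CategoryTheory CategoryTheory.Limits AlgebraicGeometry NeronModelInfra

namespace Curve

variable {k : Type u} [Field k] {C : Scheme.{u}} (c : C ⟶ Spec (CommRingCat.of k))

theorem fromSpec_comp {W : C.Opens} (hW : IsAffineOpen W) :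
    hW.fromSpec ≫ c = Spec.map (CommRingCat.ofHom (kHom c W)) := by
  rw [← (isAffineOpen_top (Spec (CommRingCat.of k))).SpecMap_appLE_fromSpec c hW (by simp),
    IsAffineOpen.fromSpec_top, kHom, CommRingCat.ofHom_hom, Spec.map_comp]
  congr 1
  rw [Scheme.isoSpec_Spec_inv]

variable [IsAlgClosed k] [IsProper c] [SmoothOfRelativeDimension 1 c] [IsIntegral C]

/-- The curve model attached to a pair of charts. -/
def Charts.curveModel (ε : SchemeHomOver (𝟙 (Spec (CommRingCat.of k))) c) (D : Charts c ε.1) :
    CurveModel c ε :=
  letI : IsOpenImmersion (Spec.map (C.presheaf.map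
      (homOfLE (inf_le_right : D.U ⊓ D.V ≤ D.V)).op)) :=
    haveI hW : IsAffineOpen (D.U ⊓ D.V) := D.basicOpen_x ▸ D.affineU.basicOpen D.x
    haveI : IsOpenImmersion (Spec.map (C.presheaf.map
        (homOfLE (inf_le_right : D.U ⊓ D.V ≤ D.V)).op) ≫ D.affineV.fromSpec) := by
      rw [IsAffineOpen.map_fromSpec D.affineV hW]; infer_instance
    IsOpenImmersion.of_comp _ D.affineV.fromSpec
  { X := D.twoChart ε.2
    iA := D.affineU.fromSpec
    iB := D.affineV.fromSpec
    openA := inferInstanceAs (IsOpenImmersion D.affineU.fromSpec)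
    openB := inferInstanceAs (IsOpenImmersion D.affineV.fromSpec)
    iA_c := fromSpec_comp c D.affineU
    iB_c := fromSpec_comp c D.affineV
    cover := by
      refine TopologicalSpace.Opens.ext ?_
      have := congrArg (fun W : C.Opens ↦ (W : Set C)) D.cover
      change Set.range D.affineU.fromSpec ∪ Set.range D.affineV.fromSpec = Set.univ
      rw [IsAffineOpen.range_fromSpec, IsAffineOpen.range_fromSpec]
      simpa using this
    isPullback := by
      have hW : IsAffineOpen (D.U ⊓ D.V) := D.basicOpen_x ▸ D.affineU.basicOpen D.x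
      have hB : Spec.map (C.presheaf.map (homOfLE (inf_le_right : D.U ⊓ D.V ≤ D.V)).op) ≫
          D.affineV.fromSpec = hW.fromSpec := IsAffineOpen.map_fromSpec D.affineV hW _
      change IsPullback (Spec.map (C.presheaf.map (homOfLE inf_le_left).op))
        (Spec.map (C.presheaf.map (homOfLE inf_le_right).op)) D.affineU.fromSpec D.affineV.fromSpec
      refine IsOpenImmersion.isPullback _ _ _ _ ?_ ?_
      · rw [hB, IsAffineOpen.map_fromSpec D.affineU hW]
      · refine TopologicalSpace.Opens.ext ?_
        have h : Set.range (Spec.map (C.presheaf.map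
            (homOfLE (inf_le_right : D.U ⊓ D.V ≤ D.V)).op) ≫ D.affineV.fromSpec) =
            (D.U ⊓ D.V : C.Opens) := by rw [hB, IsAffineOpen.range_fromSpec]
        rw [Scheme.Hom.comp_base, TopCat.coe_comp, Set.range_comp] at h
        change D.affineV.fromSpec ⁻¹' (Set.range D.affineU.fromSpec) = Set.range _
        rw [IsAffineOpen.range_fromSpec]
        refine Set.image_injective.mpr D.affineV.fromSpec.isOpenEmbedding.injective ?_
        rw [Set.image_preimage_eq_inter_range, IsAffineOpen.range_fromSpec]
        exact h.symm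
    ε_eq := by
      change Spec.map (ε.1.appLE D.U ⊤ D.ε_mem ≫ (Scheme.ΓSpecIso (CommRingCat.of k)).hom) ≫
        D.affineU.fromSpec = ε.1
      rw [Spec.map_comp, Category.assoc,
        D.affineU.SpecMap_appLE_fromSpec ε.1 (isAffineOpen_top _) D.ε_mem,
        IsAffineOpen.fromSpec_top, ← Scheme.isoSpec_Spec_hom, Iso.hom_inv_id_assoc] }

end Curve

/-- A smooth proper integral curve over an algebraically closed field with a section has a two
chart presentation. -/
theorem exists_curveModel (k : Type u) [Field k] [IsAlgClosed k] {C : Scheme.{u}}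
    (c : C ⟶ Spec (CommRingCat.of k)) [IsProper c] [SmoothOfRelativeDimension 1 c] [IsIntegral C]
    (ε : SchemeHomOver (𝟙 (Spec (CommRingCat.of k))) c) : Nonempty (CurveModel c ε) :=
  ⟨Curve.Charts.curveModel c ε (Curve.exists_charts c ε.1 ε.2).some⟩

end Fermat.Agent.Picard

end
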